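import Fermat.Agent.MazH.Alg

/-!
# The operators attached to elements of the Hecke algebra
-/

set_option autoImplicit false
set_option maxHeartbeats 400000
set_option linter.unusedSectionVars false
set_option linter.style.haveILetI false
set_option synthInstance.maxHeartbeats 400000

noncomputable section

namespace Fermat.Agent.MazH

open AlgebraicCurve Fermat.Agent.Curves Fermat.Agent.GoodRed Fermat.Agent.AnJac ModularCurve
  Fermat.Agent.GenusX0 Fermat.Agent.FlatHopf Fermat.Agent.HeckeQ Fermat.Agent.Maz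
  Fermat.Agent.Newform

local notation "Qbar" => AlgebraicClosure ℚ
local notation "GQ" => Qbar ≃ₐ[ℚ] Qbar

variable {N : ℕ} [NeZero N]

open Classical in
/-- the operator attached to an element of the Hecke algebra -/
def opT (t : TA N) : Module.End ℤ (JZero N) :=
  if t = 1 then aJ N 1 else aJ N (exists_aL t).choose

theorem opT_spec (t : TA N) :
    ∃ P : FreeAlgebra ℤ (PN N), aL N P = t ∧ opT t = aJ N P := by
  classical
  by_cases h : t = 1
  · refine ⟨1, ?_, ?_⟩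
    · rw [map_one, h]; rfl
    · rw [opT, if_pos h]
  · refine ⟨(exists_aL t).choose, (exists_aL t).choose_spec, ?_⟩
    rw [opT, if_neg h]

theorem opT_one (x : JZero N) : opT (1 : TA N) x = x := by
  rw [opT, if_pos rfl, map_one]
  rfl

theorem aJ_eq_of {P Q : FreeAlgebra ℤ (PN N)} (h : aL N P = aL N Q) {n : ℕ} (hn : n ≠ 0)
    {x : JZero N} (hx : n • x = 0) : aJ N P x = aJ N Q x := by
  have h1 : aJ N (P - Q) x = 0 := by
    refine aJ_eq_zero hn ?_ hx
    have h2 : aL N (P - Q) = 0 := by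
      rw [map_sub (aL N), h, sub_self]
    rw [h2, map_zero]
  rw [← sub_eq_zero, ← LinearMap.sub_apply, ← map_sub]
  exact h1

theorem opT_eq {P : FreeAlgebra ℤ (PN N)} {t : TA N} (h : aL N P = t) {n : ℕ} (hn : n ≠ 0)
    {x : JZero N} (hx : n • x = 0) : opT t x = aJ N P x := by
  obtain ⟨Q, hQ, hQ'⟩ := opT_spec t
  rw [hQ']
  exact aJ_eq_of (hQ.trans h.symm) hn hx

theorem opT_add (t u : TA N) {n : ℕ} (hn : n ≠ 0) {x : JZero N} (hx : n • x = 0) :
    opT (t + u) x = opT t x + opT u x := by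
  obtain ⟨P, hP⟩ := exists_aL t
  obtain ⟨Q, hQ⟩ := exists_aL u
  have h1 : aL N (P + Q) = ((t + u : TA N) : Matrix (Fin (rk N)) (Fin (rk N)) ℤ) := by
    rw [map_add (aL N), hP, hQ]; rfl
  rw [opT_eq h1 hn hx, opT_eq hP hn hx, opT_eq hQ hn hx, map_add]
  rfl

theorem nsmul_end (F : Module.End ℤ (JZero N)) {n : ℕ} {x : JZero N} (hx : n • x = 0) :
    n • F x = 0 := by
  rw [← map_nsmul, hx, map_zero]

theorem opT_mul (t u : TA N) {n : ℕ} (hn : n ≠ 0) {x : JZero N} (hx : n • x = 0) :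
    opT (t * u) x = opT t (opT u x) := by
  obtain ⟨P, hP⟩ := exists_aL t
  obtain ⟨Q, hQ⟩ := exists_aL u
  have h1 : aL N (P * Q) = ((t * u : TA N) : Matrix (Fin (rk N)) (Fin (rk N)) ℤ) := by
    rw [map_mul (aL N), hP, hQ]; rfl
  rw [opT_eq h1 hn hx, opT_eq hQ hn hx, opT_eq hP hn (nsmul_end _ hx), map_mul]
  rfl

theorem opT_gal (t : TA N) (σ : GQ) (x : JZero N) : opT t (σ • x) = σ • opT t x := by
  obtain ⟨P, -, hP⟩ := opT_spec t
  rw [hP]
  exact aJ_smul P σ x

/-- the Hecke operator in the Hecke algebra -/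
def Ths (s : PN N) : TA N := ⟨tL N s.1, Algebra.subset_adjoin ⟨s, rfl⟩⟩

theorem opT_Ths (s : PN N) {n : ℕ} (hn : n ≠ 0) {x : JZero N} (hx : n • x = 0) :
    opT (Ths s) x = Tj N s.1 s.2.1 x := by
  rw [opT_eq (P := FreeAlgebra.ι ℤ s) (aL_ι s) hn hx, aJ_ι]

theorem aJ_mem (P : FreeAlgebra ℤ (PN N)) :
    aJ N P ∈ Algebra.adjoin ℤ {F : Module.End ℤ (JZero N) |
      ∃ (s : ℕ) (hs : s.Prime), s ≠ N ∧ F = Tj N s hs} := by
  induction P using FreeAlgebra.induction with
  | grade0 c => rw [AlgHom.commutes]; exact Subalgebra.algebraMap_mem _ c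
  | grade1 s =>
    rw [aJ_ι]
    refine Algebra.subset_adjoin ⟨s.1, s.2.1, ?_, rfl⟩
    intro h
    refine s.2.2 ?_
    rw [h]
  | mul P Q hP hQ => rw [map_mul]; exact Subalgebra.mul_mem _ hP hQ
  | add P Q hP hQ => rw [map_add]; exact Subalgebra.add_mem _ hP hQ

theorem opT_mem (t : TA N) :
    opT t ∈ Algebra.adjoin ℤ {F : Module.End ℤ (JZero N) |
      ∃ (s : ℕ) (hs : s.Prime), s ≠ N ∧ F = Tj N s hs} := by
  obtain ⟨P, -, hP⟩ := opT_spec t
  rw [hP]
  exact aJ_mem P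

theorem finite_tors {n : ℕ} (hn : n ≠ 0) : {x : JZero N | n • x = 0}.Finite := by
  obtain ⟨e, -, -⟩ := exists_equiv_J N hn
  haveI : NeZero n := ⟨hn⟩
  haveI : Finite (Submodule.torsionBy ℤ (JZero N) (n : ℤ)) := Finite.of_equiv _ e.symm.toEquiv
  refine (Set.toFinite (Submodule.torsionBy ℤ (JZero N) (n : ℤ) : Set (JZero N))).subset ?_
  intro x hx
  rw [SetLike.mem_coe, Submodule.mem_torsionBy_iff, natCast_zsmul]
  exact hx

/-- almost saturation -/
theorem exists_sat {V : Type*} [AddCommGroup V] [IsNoetherian ℤ V] (S : AddSubgroup V) (r : ℕ) :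
    ∃ b : ℕ, ∀ (m : ℕ) (v : V), r ^ m • v ∈ S → r ^ b • v ∈ S := by
  let f : ℕ →o Submodule ℤ V :=
    { toFun := fun m => (AddSubgroup.toIntSubmodule S).comap
        ((r ^ m : ℕ) • (LinearMap.id : V →ₗ[ℤ] V))
      monotone' := by
        intro a b hab v hv
        rw [Submodule.mem_comap, LinearMap.smul_apply, LinearMap.id_apply] at hv ⊢
        obtain ⟨c, rfl⟩ := Nat.exists_eq_add_of_le hab
        rw [pow_add, mul_comm, mul_smul]
        exact (AddSubgroup.toIntSubmodule S).nsmul_mem hv _ }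
  obtain ⟨b, hb⟩ := monotone_stabilizes_iff_noetherian.mpr ‹IsNoetherian ℤ V› f
  refine ⟨b, fun m v hv => ?_⟩
  have h1 : v ∈ f (max b m) := f.monotone (le_max_right b m) (show v ∈ f m from hv)
  rw [← hb _ (le_max_left b m)] at h1
  exact h1

theorem sat_T (r : ℕ) (hr : r ≠ 0) :
    ∃ b : ℕ, ∀ (k : ℕ) (t : TA N), (∀ x : JZero N, r ^ (k + b) • x = 0 → opT t x = 0) →
    ∃ u : TA N, t = (r ^ k : ℕ) • u := by
  obtain ⟨b, hb⟩ := exists_sat (V := Matrix (Fin (rk N)) (Fin (rk N)) ℤ)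
    (TA N).toSubmodule.toAddSubgroup r
  refine ⟨b, fun k t ht => ?_⟩
  obtain ⟨P, hP⟩ := exists_aL t
  have hn : r ^ (k + b) ≠ 0 := pow_ne_zero _ hr
  have h1 := aL_eq_zero (N := N) hn (P := P) (fun x hx => by
    rw [← opT_eq hP hn hx]; exact ht x hx)
  -- divisibility of the entries
  have h2 : ∀ i j, ((r ^ (k + b) : ℕ) : ℤ) ∣ aL N P i j := by
    intro i j
    have h3 := congrFun (congrFun h1 i) j
    exact (ZMod.intCast_zmod_eq_zero_iff_dvd _ _).mp h3
  choose M hM using h2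
  have h3 : aL N P = (r ^ (k + b) : ℕ) • (Matrix.of M) := by
    ext i j
    rw [hM, Matrix.smul_apply, Matrix.of_apply, nsmul_eq_mul]
  have h4 : r ^ b • (Matrix.of M) ∈ (TA N).toSubmodule.toAddSubgroup := by
    refine hb (k + b) _ ?_
    rw [← h3]
    exact aL_mem P
  refine ⟨⟨r ^ b • (Matrix.of M), h4⟩, ?_⟩
  apply Subtype.ext
  rw [← hP, h3, pow_add, mul_smul]
  rfl

end Fermat.Agent.MazH
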