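import Fermat.Agent.MazH.Op
import Fermat.Agent.HeckeQ.Inst

/-!
# The Hecke package
-/

set_option autoImplicit false
set_option maxHeartbeats 400000
set_option linter.unusedSectionVars false
set_option linter.style.haveILetI false
set_option synthInstance.maxHeartbeats 400000

noncomputable section

namespace Fermat.Agent.MazH

open AlgebraicCurve Fermat.Agent.Curves Fermat.Agent.GoodRed Fermat.Agent.AnJac ModularCurve
  Fermat.Agent.GenusX0 Fermat.Agent.FlatHopf Fermat.Agent.HeckeQ Fermat.Agent.Maz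
  Fermat.Agent.Newform Fermat.Agent.GalRep

local notation "Qbar" => AlgebraicClosure ℚ
local notation "GQ" => Qbar ≃ₐ[ℚ] Qbar

variable {N : ℕ} [NeZero N]

/-- Dickson elements in the Hecke algebra -/
theorem coe_dk (t : TA N) (a k : ℕ) :
    ((dk t (a : TA N) k : TA N) : Matrix (Fin (rk N)) (Fin (rk N)) ℤ) =
      dk (t : Matrix (Fin (rk N)) (Fin (rk N)) ℤ) (a : Matrix (Fin (rk N)) (Fin (rk N)) ℤ) k := by
  induction k using Nat.twoStepInduction with
  | zero => rfl
  | one => rfl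
  | more n ih1 ih2 =>
    rw [dk, dk, ← ih1, ← ih2]
    rfl

theorem dk_span {R : Type*} [CommRing R] (t : R) (a k : ℕ) :
    dk t (a : R) k - 1 - ((a ^ k : ℕ) : R) ∈ Ideal.span {t - 1 - (a : R)} := by
  rw [← Ideal.Quotient.eq_zero_iff_mem, map_sub, map_sub, map_dk, map_one, map_natCast, map_natCast]
  have h1 : Ideal.Quotient.mk (Ideal.span {t - 1 - (a : R)}) t = 1 + (a : R ⧸ _) := by
    have h2 : Ideal.Quotient.mk (Ideal.span {t - 1 - (a : R)}) (t - 1 - (a : R)) = 0 :=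
      Ideal.Quotient.eq_zero_iff_mem.mpr (Ideal.subset_span rfl)
    rw [map_sub, map_sub, map_one, map_natCast] at h2
    linear_combination h2
  rw [h1, dk_eq (x := 1) (y := (a : R ⧸ Ideal.span {t - 1 - (a : R)})) (one_mul _) (mul_one _) rfl,
    one_pow, Nat.cast_pow]
  ring

/-- Frobenius powers on roots of unity -/
theorem frob_pow_root {ℓ : ℕ} (hℓ : ℓ.Prime) {A : ValuationSubring Qbar} (hA : A.LiesOverPrime ℓ)
    {τ : GQ} (hτ : A.IsFrobeniusAt τ ℓ) {m : ℕ} (hm : ¬ ℓ ∣ m) (k : ℕ) {x : Qbar}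
    (hx : x ^ m = 1) : (τ ^ k) x = x ^ (ℓ ^ k) := by
  induction k with
  | zero => rw [pow_zero, pow_zero, pow_one]; rfl
  | succ k ih =>
    rw [pow_succ', AlgEquiv.mul_apply, ih, map_pow, frob_rootOfUnity hℓ hA hτ hm hx, ← pow_mul,
      pow_succ']

theorem es_T (r : ℕ) [hr : Fact r.Prime] (g : GQ) (k : ℕ) :
    ∃ (t : TA N) (c : ℕ), Cyc r k g c ∧
      t - 1 - (c : TA N) ∈ Ideal.span {x : TA N | ∃ s : PN N, x = Ths s - 1 - (s.1 : TA N)} ∧
      ∀ x : JZero N, r ^ k • x = 0 → g • x + c • (g⁻¹ • x) = opT t x := by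
  have hrk : r ^ k ≠ 0 := pow_ne_zero k hr.out.ne_zero
  obtain ⟨ζ, hζ⟩ := HasEnoughRootsOfUnity.exists_primitiveRoot Qbar (r ^ k)
  have hint : IsIntegral ℚ ζ := by
    refine IsIntegral.of_pow (n := r ^ k) (Nat.pos_of_ne_zero hrk) ?_
    rw [hζ.pow_eq_one]
    exact isIntegral_one
  haveI : FiniteDimensional ℚ (IntermediateField.adjoin ℚ {ζ}) :=
    IntermediateField.adjoin.finiteDimensional hint
  obtain ⟨ℓ, kk, hℓ, hℓN, -, A, hA, τ, hτ, hL, heq⟩ :=
    (hdata N r (esHyp N r)).exists_approx ∅ Set.finite_empty (NeZero.ne N) g k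
      (IntermediateField.adjoin ℚ {ζ})
  have hℓN' : ¬ ℓ ∣ N := fun h => hℓN (h.mul_right r)
  have hℓr : ¬ ℓ ∣ r ^ k := fun h => hℓN ((hℓ.dvd_of_dvd_pow h).mul_left N)
  have hcyc : Cyc r k g (ℓ ^ kk) := by
    intro z hz
    obtain ⟨i, -, rfl⟩ := hζ.eq_pow_of_pow_eq_one hz
    have h1 : ζ ^ i ∈ IntermediateField.adjoin ℚ {ζ} :=
      pow_mem (IntermediateField.mem_adjoin_simple_self ℚ ζ) i
    rw [← hL _ h1]
    exact frob_pow_root hℓ hA hτ hℓr kk hz
  have hc : PadicInt.toZModPow k (cycP r g) = ((ℓ ^ kk : ℕ) : ZMod (r ^ k)) :=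
    toZModPow_cycP_eq r g hζ (hcyc ζ hζ.pow_eq_one)
  set s : PN N := ⟨ℓ, hℓ, hℓN'⟩ with hs
  refine ⟨dk (Ths s) (ℓ : TA N) kk, ℓ ^ kk, hcyc, ?_, fun x hx => ?_⟩
  · refine Ideal.span_mono ?_ (dk_span (Ths s) ℓ kk)
    rintro _ rfl
    exact ⟨s, rfl⟩
  · obtain ⟨e, hG, hH⟩ := exists_equiv_J N hrk
    have hx' : x ∈ Submodule.torsionBy ℤ (JZero N) ((r ^ k : ℕ) : ℤ) := by
      rw [Submodule.mem_torsionBy_iff, natCast_zsmul]; exact hx
    have hgx : ∀ σ : GQ, σ • x ∈ Submodule.torsionBy ℤ (JZero N) ((r ^ k : ℕ) : ℤ) := by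
      intro σ
      rw [Submodule.mem_torsionBy_iff, natCast_zsmul]
      rw [← DistribSMul.toAddMonoidHom_apply (JZero N) σ x, ← map_nsmul, hx, map_zero]
    obtain ⟨P, hP⟩ := exists_aL (dk (Ths s) (ℓ : TA N) kk)
    have h1 := aJ_tors hrk hH P ⟨x, hx'⟩
    have h2 : opT (dk (Ths s) (ℓ : TA N) kk) x = aJ N P x := opT_eq hP hrk hx
    rw [h2]
    have h3 : e (⟨g • x, hgx g⟩ + (ℓ ^ kk) • ⟨g⁻¹ • x, hgx g⁻¹⟩) =
        e ⟨aJ N P x, end_mem_tors (aJ N P) hx'⟩ := by
      rw [h1, map_add, map_nsmul, hG g ⟨x, hx'⟩ ⟨g • x, hgx g⟩ rfl,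
        hG g⁻¹ ⟨x, hx'⟩ ⟨g⁻¹ • x, hgx g⁻¹⟩ rfl, hP, coe_dk]
      have h4 : (Int.castRingHom (ZMod (r ^ k))).mapMatrix
          (dk ((Ths s : TA N) : Matrix (Fin (rk N)) (Fin (rk N)) ℤ)
            (ℓ : Matrix (Fin (rk N)) (Fin (rk N)) ℤ) kk) =
          (KQ N).M (bL N) hrk g + (ℓ ^ kk) • (KQ N).M (bL N) hrk g⁻¹ := by
        have h5 := (KQ N).rho_spec (bL N) r g k
        have h6 := (KQ N).rho_spec (bL N) r g⁻¹ k
        have hs' : ∀ (c : ℤ_[r]) (M : Matrix (Fin (rk N)) (Fin (rk N)) ℤ_[r]),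
            (PadicInt.toZModPow k).mapMatrix (c • M) =
              PadicInt.toZModPow k c • (PadicInt.toZModPow k).mapMatrix M := by
          intro c M
          ext i j
          simp
        have h7 : (PadicInt.toZModPow k).mapMatrix ((KQ N).rho (bL N) r g +
          cycP r g • (KQ N).rho (bL N) r g⁻¹) =
          (KQ N).M (bL N) hrk g + (ℓ ^ kk) • (KQ N).M (bL N) hrk g⁻¹ := by
          rw [map_add, hs', h5, h6, hc]
          congr 1
          ext i j
          simp only [Matrix.smul_apply, nsmul_eq_mul, smul_eq_mul]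
        exact heq.symm.trans h7
      rw [h4, Matrix.add_mulVec, Matrix.smul_mulVec]
    exact congrArg Subtype.val (e.injective h3)

theorem eta_nzd (s : PN N) (e : ℤ) (he : e = 1 ∨ e = -1) :
    Ths s - (e : TA N) * (1 + (s.1 : TA N)) ∈ nonZeroDivisors (TA N) := by
  rw [mem_nonZeroDivisors_iff_right]
  intro t ht
  exact eta_TA s e he t (by rw [mul_comm]; exact ht)

variable (N) in
/-- the inclusion of the Hecke algebra -/
def inclTA : TA N →+ Matrix (Fin (rk N)) (Fin (rk N)) ℤ where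
  toFun t := t
  map_zero' := rfl
  map_add' _ _ := rfl

variable (N) in
theorem fin_TA : Module.Finite ℤ (TA N) := by
  have h : Function.Injective (inclTA N).toIntLinearMap := Subtype.val_injective
  exact Module.Finite.of_injective (inclTA N).toIntLinearMap h

variable (N) in
theorem free_TA : Module.Free ℤ (TA N) := by
  haveI := fin_TA N
  have h : Function.Injective (inclTA N).toIntLinearMap := Subtype.val_injective
  haveI : Module.IsTorsionFree ℤ (TA N) := h.moduleIsTorsionFree _ fun c x => map_smul _ c x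
  infer_instance

/-- **the Hecke package** -/
theorem hpkg : HPkgStatement := by
  intro N _ hN _ r hr hrN
  haveI : Fact r.Prime := ⟨hr⟩
  have key : ∀ {s : ℕ}, s.Prime → s ≠ N → ¬ s ∣ N := fun {s} hs h h1 =>
    h ((Nat.prime_dvd_prime_iff_eq hs hN).mp h1)
  refine ⟨{
    T := TA N
    fin := fin_TA N
    free := free_TA N
    red := isReduced_TA
    op := opT
    Th := fun s hs h => Ths ⟨s, hs, key hs h⟩
    op_Th := fun s hs h k x hx => opT_Ths _ (pow_ne_zero k hr.ne_zero) hx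
    op_mem := opT_mem
    op_gal := opT_gal
    op_one := opT_one
    op_add := fun t u k x hx => opT_add t u (pow_ne_zero k hr.ne_zero) hx
    op_mul := fun t u k x hx => opT_mul t u (pow_ne_zero k hr.ne_zero) hx
    sat := sat_T r hr.ne_zero
    es := fun g k => ?_
    eta := fun s hs h => by
      have := eta_nzd (N := N) ⟨s, hs, key hs h⟩ 1 (Or.inl rfl)
      convert this using 1
      push_cast
      ring
    eta' := fun s hs h => by
      have := eta_nzd (N := N) ⟨s, hs, key hs h⟩ (-1) (Or.inr rfl)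
      convert this using 1
      push_cast
      ring
    finJ := fun k => finite_tors (pow_ne_zero k hr.ne_zero) }⟩
  · obtain ⟨t, c, h1, h2, h3⟩ := es_T (N := N) r g k
    refine ⟨t, c, h1, ?_, h3⟩
    refine Ideal.span_mono ?_ h2
    rintro x ⟨s, rfl⟩
    refine ⟨s.1, s.2.1, fun h4 => s.2.2 ?_, rfl⟩
    rw [h4]

end Fermat.Agent.MazH
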