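import Fermat.Agent.MazH.Tor

/-!
# Hecke polynomials on `J₀(N)` and its torsion
-/

set_option autoImplicit false
set_option maxHeartbeats 400000
set_option linter.unusedSectionVars false
set_option linter.style.haveILetI false
set_option synthInstance.maxHeartbeats 400000

noncomputable section

namespace Fermat.Agent.MazH

open AlgebraicCurve Fermat.Agent.Curves Fermat.Agent.GoodRed Fermat.Agent.AnJac ModularCurve
  Fermat.Agent.GenusX0 Fermat.Agent.FlatHopf Fermat.Agent.HeckeQ Fermat.Agent.Maz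

local notation "Qbar" => AlgebraicClosure ℚ
local notation "GQ" => Qbar ≃ₐ[ℚ] Qbar

variable (N : ℕ) [NeZero N]

/-- the rank of the lattice -/
abbrev rk : ℕ := Module.finrank ℤ (Lat N)

/-- the operator `T_s` on the lattice -/
abbrev tL (s : ℕ) : Matrix (Fin (rk N)) (Fin (rk N)) ℤ := KSys.tm (bL N) (LTot N s)

theorem gal_smul_eq (σ : GQ) (x : JZero N) :
    σ • x = arithmeticGalois (modularFunctionFieldFull N) σ • x := rfl

/-- the torsion of `J₀(N)` as a Galois and Hecke module -/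
theorem exists_equiv_J {n : ℕ} (hn : n ≠ 0) :
    ∃ e : Submodule.torsionBy ℤ (JZero N) (n : ℤ) ≃+ (Fin (rk N) → ZMod n),
      (∀ (σ : GQ) (x y : Submodule.torsionBy ℤ (JZero N) (n : ℤ)), (y : JZero N) = σ • (x : JZero N) →
          e y = ((KQ N).M (bL N) hn σ).mulVec (e x)) ∧
      ∀ (s : ℕ) (hs : s.Prime), ¬ s ∣ N → ∀ x y : Submodule.torsionBy ℤ (JZero N) (n : ℤ),
        (y : JZero N) = Tj N s hs (x : JZero N) →
        e y = ((Int.castRingHom (ZMod n)).mapMatrix (tL N s)).mulVec (e x) := by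
  obtain ⟨e, h1, h2⟩ := exists_equiv_H N (modularFunctionFieldBar N)
    (Fermat.Agent.Curves.laurentBaseChange_eq _ N) (arithmeticGalois (modularFunctionFieldFull N))
    (fun σ x => coe_arithmeticGalois_smul _ σ x) hn
  refine ⟨e, fun σ x y hxy => h1 σ x y hxy, fun s hs hsN x y hxy => ?_⟩
  haveI : Fact s.Prime := ⟨hs⟩
  haveI : NeZero s := ⟨hs.ne_zero⟩
  obtain ⟨D, hD⟩ := Pic0.mk_surjective (x : JZero N)
  refine h2 s hsN (heckeDiv Qbar N s) (fun f hf => heckeDiv_divisorOf hsN hf) D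
    ⟨heckeDiv Qbar N s D, heckeDiv_mem_degZero Qbar N s D.2⟩ rfl x y hD.symm ?_
  rw [hxy, ← hD]
  exact Fermat.Agent.S37.hecke_mk hs D

/-- the index type of the Hecke operators -/
abbrev PN := {s : ℕ // s.Prime ∧ ¬ s ∣ N}

/-- polynomials in the Hecke operators, on the lattice -/
def aL : FreeAlgebra ℤ (PN N) →ₐ[ℤ] Matrix (Fin (rk N)) (Fin (rk N)) ℤ :=
  FreeAlgebra.lift ℤ fun s => tL N s.1

/-- polynomials in the Hecke operators, on the Jacobian -/
def aJ : FreeAlgebra ℤ (PN N) →ₐ[ℤ] Module.End ℤ (JZero N) :=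
  FreeAlgebra.lift ℤ fun s => Tj N s.1 s.2.1

variable {N}

theorem aL_ι (s : PN N) : aL N (FreeAlgebra.ι ℤ s) = tL N s.1 := FreeAlgebra.lift_ι_apply _ _

theorem aJ_ι (s : PN N) : aJ N (FreeAlgebra.ι ℤ s) = Tj N s.1 s.2.1 :=
  FreeAlgebra.lift_ι_apply _ _

theorem mv_add {r n : ℕ} (A B : Matrix (Fin r) (Fin r) ℤ) (v : Fin r → ZMod n) :
    ((Int.castRingHom (ZMod n)).mapMatrix (A + B)).mulVec v =
      ((Int.castRingHom (ZMod n)).mapMatrix A).mulVec v +
        ((Int.castRingHom (ZMod n)).mapMatrix B).mulVec v := by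
  rw [map_add, Matrix.add_mulVec]

theorem mv_mul {r n : ℕ} (A B : Matrix (Fin r) (Fin r) ℤ) (v : Fin r → ZMod n) :
    ((Int.castRingHom (ZMod n)).mapMatrix (A * B)).mulVec v =
      ((Int.castRingHom (ZMod n)).mapMatrix A).mulVec
        (((Int.castRingHom (ZMod n)).mapMatrix B).mulVec v) := by
  rw [map_mul, Matrix.mulVec_mulVec]

/-- an endomorphism preserves torsion -/
theorem end_mem_tors (F : Module.End ℤ (JZero N)) {n : ℤ} {x : JZero N}
    (hx : x ∈ Submodule.torsionBy ℤ (JZero N) n) : F x ∈ Submodule.torsionBy ℤ (JZero N) n := by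
  rw [Submodule.mem_torsionBy_iff] at hx ⊢
  rw [← map_zsmul, hx, map_zero]

/-- compatibility of the two actions on torsion -/
theorem aJ_tors {n : ℕ} (hn : n ≠ 0)
    {e : Submodule.torsionBy ℤ (JZero N) (n : ℤ) ≃+ (Fin (rk N) → ZMod n)}
    (he : ∀ (s : ℕ) (hs : s.Prime), ¬ s ∣ N → ∀ x y : Submodule.torsionBy ℤ (JZero N) (n : ℤ),
        (y : JZero N) = Tj N s hs (x : JZero N) →
        e y = ((Int.castRingHom (ZMod n)).mapMatrix (tL N s)).mulVec (e x))
    (P : FreeAlgebra ℤ (PN N)) (x : Submodule.torsionBy ℤ (JZero N) (n : ℤ)) :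
    e ⟨aJ N P x, end_mem_tors (aJ N P) x.2⟩ =
      ((Int.castRingHom (ZMod n)).mapMatrix (aL N P)).mulVec (e x) := by
  induction P using FreeAlgebra.induction generalizing x with
  | grade0 c =>
    have h1 : (⟨aJ N (algebraMap ℤ _ c) x, end_mem_tors _ x.2⟩ :
        Submodule.torsionBy ℤ (JZero N) (n : ℤ)) = c • x := by
      apply Subtype.ext
      change aJ N (algebraMap ℤ _ c) (x : JZero N) = c • (x : JZero N)
      rw [AlgHom.commutes]
      rfl
    rw [h1, AlgHom.commutes, map_zsmul, eq_intCast, map_intCast, ← zsmul_one c, Matrix.smul_mulVec,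
      Matrix.one_mulVec]
  | grade1 s =>
    refine (he s.1 s.2.1 s.2.2 x _ ?_).trans ?_
    · change aJ N _ (x : JZero N) = _
      rw [aJ_ι]
    · rw [aL_ι]
  | mul P Q hP hQ =>
    have h1 : (⟨aJ N (P * Q) x, end_mem_tors _ x.2⟩ :
        Submodule.torsionBy ℤ (JZero N) (n : ℤ)) =
        ⟨aJ N P (⟨aJ N Q x, end_mem_tors _ x.2⟩ : Submodule.torsionBy ℤ (JZero N) (n : ℤ)),
          end_mem_tors _ (Subtype.prop _)⟩ := by
      apply Subtype.ext
      change aJ N (P * Q) (x : JZero N) = aJ N P (aJ N Q x)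
      rw [map_mul]
      rfl
    rw [h1, hP, hQ, map_mul (aL N), mv_mul]
  | add P Q hP hQ =>
    have h1 : (⟨aJ N (P + Q) x, end_mem_tors _ x.2⟩ :
        Submodule.torsionBy ℤ (JZero N) (n : ℤ)) =
        ⟨aJ N P x, end_mem_tors _ x.2⟩ + ⟨aJ N Q x, end_mem_tors _ x.2⟩ := by
      apply Subtype.ext
      change aJ N (P + Q) (x : JZero N) = aJ N P x + aJ N Q x
      rw [map_add]
      rfl
    have h2 : e (⟨aJ N P x, end_mem_tors _ x.2⟩ + ⟨aJ N Q x, end_mem_tors _ x.2⟩) =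
        e ⟨aJ N P x, end_mem_tors _ x.2⟩ + e ⟨aJ N Q x, end_mem_tors _ x.2⟩ := e.map_add _ _
    have h3 : aL N (P + Q) = aL N P + aL N Q := map_add (aL N) P Q
    rw [h1, h2, hP, hQ, h3, mv_add]

/-- a polynomial which acts as zero modulo `n` on the lattice kills the `n`-torsion -/
theorem aJ_eq_zero {n : ℕ} (hn : n ≠ 0) {P : FreeAlgebra ℤ (PN N)}
    (hP : (Int.castRingHom (ZMod n)).mapMatrix (aL N P) = 0) {x : JZero N} (hx : n • x = 0) :
    aJ N P x = 0 := by
  obtain ⟨e, -, he⟩ := exists_equiv_J N hn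
  have hx' : x ∈ Submodule.torsionBy ℤ (JZero N) (n : ℤ) := by
    rw [Submodule.mem_torsionBy_iff, natCast_zsmul]; exact hx
  have h1 := aJ_tors hn he P ⟨x, hx'⟩
  rw [hP, Matrix.zero_mulVec] at h1
  exact congrArg Subtype.val (e.map_eq_zero_iff.mp h1)

/-- conversely -/
theorem aL_eq_zero {n : ℕ} (hn : n ≠ 0) {P : FreeAlgebra ℤ (PN N)}
    (hP : ∀ x : JZero N, n • x = 0 → aJ N P x = 0) :
    (Int.castRingHom (ZMod n)).mapMatrix (aL N P) = 0 := by
  obtain ⟨e, -, he⟩ := exists_equiv_J N hn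
  have h2 : ∀ v, ((Int.castRingHom (ZMod n)).mapMatrix (aL N P)).mulVec v = 0 := by
    intro v
    obtain ⟨x, rfl⟩ := e.surjective v
    rw [← aJ_tors hn he P x]
    have h3 : (⟨aJ N P x, end_mem_tors _ x.2⟩ :
        Submodule.torsionBy ℤ (JZero N) (n : ℤ)) = 0 := by
      apply Subtype.ext
      have h4 := (Submodule.mem_torsionBy_iff _ _).mp x.2
      rw [natCast_zsmul] at h4
      exact hP x h4
    rw [h3, map_zero]
  ext i j
  have h3 := congrFun (h2 (Pi.single j 1)) i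
  rwa [Matrix.mulVec_single_one] at h3

end Fermat.Agent.MazH
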