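import Fermat.Agent.Newform.Eig

/-!
# Eigenvalues of `T_p` are not `± (p + 1)`
-/

set_option autoImplicit false

noncomputable section

namespace Fermat.Agent.MazH

open UpperHalfPlane MeasureTheory Matrix Set Fermat.Agent.Newform
open scoped MatrixGroups ModularForm ENNReal Modular ComplexConjugate

variable {𝒢 : Subgroup (GL (Fin 2) ℝ)} {ψ : ℍ → ℝ≥0∞} {ι : Type*} {r : ι → GL (Fin 2) ℝ}
  {s : GL (Fin 2) ℝ} {Δ : Set (GL (Fin 2) ℝ)}

theorem pos_of_mem [Nonempty ι] (h : HSys 𝒢 r s Δ) {γ : GL (Fin 2) ℝ} (hγ : γ ∈ 𝒢) :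
    0 < γ.det.val := by
  obtain ⟨i⟩ := ‹Nonempty ι›
  have h1 := h.pos _ (h.mem γ hγ i)
  have h2 := h.pos _ (h.mem 1 (one_mem _) i)
  rw [one_mul] at h2
  rw [map_mul, Units.val_mul] at h1
  exact pos_of_mul_pos_left h1 h2.le

theorem mem_mul_right (h : HSys 𝒢 r s Δ) {δ γ : GL (Fin 2) ℝ} (hδ : δ ∈ Δ) (hγ : γ ∈ 𝒢) :
    δ * γ ∈ Δ := by
  have hl : ∀ {δ γ : GL (Fin 2) ℝ}, δ ∈ Δ → γ ∈ 𝒢 → γ * δ ∈ Δ := by
    intro δ γ hδ hγ
    obtain ⟨i, hi⟩ := h.surj δ hδ
    have := h.mem (γ * (δ * (r i)⁻¹)) (𝒢.mul_mem hγ hi) i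
    rwa [mul_assoc, inv_mul_cancel_right] at this
  have h1 := h.inv δ hδ
  have h2 := hl h1 (𝒢.inv_mem hγ)
  have h3 := h.inv _ h2
  have h4 : s * (γ⁻¹ * (s * δ⁻¹))⁻¹ = δ * γ := by
    rw [_root_.mul_inv_rev, _root_.mul_inv_rev, inv_inv, inv_inv]
    have h5 := h.s_comm δ
    calc s * (δ * s⁻¹ * γ) = (s * δ) * s⁻¹ * γ := by group
      _ = δ * γ := by rw [h5]; group
  rwa [h4] at h3

theorem exists_perm [Finite ι] (h : HSys 𝒢 r s Δ) {γ : GL (Fin 2) ℝ} (hγ : γ ∈ 𝒢) :
    ∃ σ : ι ≃ ι, ∀ i, ∃ g ∈ 𝒢, r i * γ = g * r (σ i) := by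
  have h1 : ∀ i, ∃ j, r i * γ * (r j)⁻¹ ∈ 𝒢 := fun i => h.surj _ (mem_mul_right h (by
    have := h.mem 1 (one_mem _) i
    rwa [one_mul] at this) hγ)
  choose σ hσ using h1
  have hinj : Function.Injective σ := by
    intro i j hij
    apply h.inj
    have h2 := 𝒢.mul_mem (hσ i) (𝒢.inv_mem (hσ j))
    rw [hij] at h2
    have h3 : r i * γ * (r (σ j))⁻¹ * (r j * γ * (r (σ j))⁻¹)⁻¹ = r i * (r j)⁻¹ := by group
    rwa [h3] at h2
  refine ⟨Equiv.ofBijective σ ⟨hinj, (Finite.injective_iff_surjective.mp hinj)⟩, fun i =>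
    ⟨r i * γ * (r (σ i))⁻¹, hσ i, ?_⟩⟩
  change _ = _ * r (σ i)
  rw [inv_mul_cancel_right]

/-- the difference -/
def Df (f : ℍ → ℂ) (c : ℂ) (δ : GL (Fin 2) ℝ) : ℍ → ℂ := f ∣[(2 : ℤ)] δ - c • f

theorem pet_sub (A B : ℍ → ℂ) (c : ℂ) (z : ℍ) : petersson 2 (A - c • B) (A - c • B) z =
    petersson 2 A A z - c * petersson 2 A B z - conj c * petersson 2 B A z +
      (conj c * c) * petersson 2 B B z := by
  simp only [petersson, Pi.sub_apply, Pi.smul_apply, smul_eq_mul, map_sub, map_mul]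
  ring

theorem ip_sum_slash [Fintype ι] [Countable 𝒢] (h : HSys 𝒢 r s Δ) (hψ : IsWt 𝒢 ψ)
    {f : ℍ → ℂ} (hf : Nice 𝒢 f) (hfr : ∀ i, Continuous (f ∣[(2 : ℤ)] (r i))) :
    ∫ z, ((ψ z).toReal : ℂ) * ∑ i, petersson 2 (f ∣[(2 : ℤ)] (r i)) (f ∣[(2 : ℤ)] (r i)) z =
      ∫ z, ((ψ z).toReal : ℂ) * ∑ _i : ι, petersson 2 f f z := by
  obtain ⟨C, hC⟩ := hf.bdd
  have hr : ∀ i, r i ∈ Δ := fun i => by
    have := h.mem 1 (one_mem _) i
    rwa [one_mul] at this
  rw [h.integral_eq hψ (H := fun δ z => petersson 2 (f ∣[(2 : ℤ)] δ) (f ∣[(2 : ℤ)] δ) z) (C := C)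
      (fun γ hγ i => by
        funext z
        rw [SlashAction.slash_mul, hf.slash γ hγ])
      (fun i => (petersson_continuous 2 (hfr i) (hfr i)).measurable)
      (fun i z => by rw [petersson_slash_pos (h.pos _ (hr i))]; exact hC _),
    h.integral_eq hψ (H := fun _ z => petersson 2 f f z) (C := C) (fun γ hγ i => rfl)
      (fun i => (petersson_continuous 2 hf.cont hf.cont).measurable) (fun i z => hC z),
    ← h.dual.tsum_eq]
  refine tsum_congr fun δ => ?_
  rw [← integral_smul_eq_self (μ := (volume : Measure ℍ)) _ (g := (δ : GL (Fin 2) ℝ))]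
  congr 1
  ext z
  have h1 : ∀ w : ℍ, ((h.dual δ : Δ) : GL (Fin 2) ℝ) • ((δ : GL (Fin 2) ℝ) • w) = w := by
    intro w
    rw [h.dual_apply, ← mul_smul, mul_assoc, inv_mul_cancel, mul_one, h.s_smul]
  rw [h1, petersson_slash_pos (h.pos _ (h.dual δ).2), h1]
  ring

theorem slash_eq_of_eig [Fintype ι] [Nonempty ι] [Countable 𝒢] (h : HSys 𝒢 r s Δ)
    (hψ : IsWt 𝒢 ψ) {f : ℍ → ℂ} (hf : Nice 𝒢 f) (hfr : ∀ i, Continuous (f ∣[(2 : ℤ)] (r i)))
    {a : ℂ} (ha : ∑ i, f ∣[(2 : ℤ)] (r i) = a • f) (hna : conj a * a = (Fintype.card ι : ℂ) ^ 2)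
    (i : ι) : f ∣[(2 : ℤ)] (r i) = (a / Fintype.card ι) • f := by
  obtain ⟨C, hC⟩ := hf.bdd
  have hr : ∀ i, r i ∈ Δ := fun i => by
    have := h.mem 1 (one_mem _) i
    rwa [one_mul] at this
  set m : ℂ := (Fintype.card ι : ℂ) with hm
  have hm0 : m ≠ 0 := by
    rw [hm]
    exact_mod_cast Fintype.card_ne_zero
  set c : ℂ := a / m with hc
  set E : ℍ → ℝ := fun z => ∑ i, (‖Df f c (r i) z‖ ^ 2 * z.im ^ 2) with hE
  have hEpet : ∀ z, (E z : ℂ) = ∑ i, petersson 2 (Df f c (r i)) (Df f c (r i)) z := by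
    intro z
    rw [hE]
    push_cast
    refine Finset.sum_congr rfl fun i _ => ?_
    rw [petersson_self]
    push_cast
    rfl
  have hcont : ∀ i, Continuous (Df f c (r i)) := fun i => (hfr i).sub (hf.cont.const_smul c)
  have hEcont : Continuous E := by
    refine continuous_finsetSum _ fun i _ => ?_
    exact ((hcont i).norm.pow 2).mul (UpperHalfPlane.continuous_im.pow 2)
  have hmc : conj m = m := by rw [hm]; exact Complex.conj_natCast _
  have hcc : conj c * c = 1 := by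
    rw [hc, map_div₀, hmc, div_mul_div_comm, hna]
    field_simp
  -- the integral of `E`
  have hsum : ∀ z, ∑ i, petersson 2 (Df f c (r i)) (Df f c (r i)) z =
      ∑ i, petersson 2 (f ∣[(2 : ℤ)] (r i)) (f ∣[(2 : ℤ)] (r i)) z -
        ∑ _i : ι, petersson 2 f f z := by
    intro z
    have e1 : ∑ i, petersson 2 (f ∣[(2 : ℤ)] (r i)) f z = conj a * petersson 2 f f z := by
      rw [← petersson_sum_left, ha]
      simp only [petersson, Pi.smul_apply, smul_eq_mul, map_mul]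
      ring
    have e2 : ∑ i, petersson 2 f (f ∣[(2 : ℤ)] (r i)) z = a * petersson 2 f f z := by
      rw [← petersson_sum_right, ha]
      simp only [petersson, Pi.smul_apply, smul_eq_mul]
      ring
    simp only [Df, pet_sub, Finset.sum_add_distrib, Finset.sum_sub_distrib, ← Finset.mul_sum,
      e1, e2, hcc, Finset.sum_const, Finset.card_univ, nsmul_eq_mul, ← hm]
    have e3 : c * conj a = m := by
      rw [hc, div_mul_eq_mul_div, mul_comm a, hna]
      field_simp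
    have e4 : conj c * a = m := by
      rw [hc, map_div₀, hmc, div_mul_eq_mul_div, hna]
      field_simp
    linear_combination (-petersson 2 f f z) * e3 + (-petersson 2 f f z) * e4
  have hpetb : ∀ i z, ‖petersson 2 (f ∣[(2 : ℤ)] (r i)) (f ∣[(2 : ℤ)] (r i)) z‖ ≤ C := by
    intro i z
    rw [petersson_slash_pos (h.pos _ (hr i))]
    exact hC _
  have hi1 : Integrable (fun z => ((ψ z).toReal : ℂ) *
      ∑ i, petersson 2 (f ∣[(2 : ℤ)] (r i)) (f ∣[(2 : ℤ)] (r i)) z) := by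
    refine hψ.integrable (continuous_finsetSum _ fun i _ =>
      petersson_continuous 2 (hfr i) (hfr i)) (C := ∑ _i : ι, C) fun z => ?_
    exact (norm_sum_le _ _).trans (Finset.sum_le_sum fun i _ => hpetb i z)
  have hi2 : Integrable (fun z => ((ψ z).toReal : ℂ) * ∑ _i : ι, petersson 2 f f z) := by
    refine hψ.integrable (continuous_finsetSum _ fun i _ =>
      petersson_continuous 2 hf.cont hf.cont) (C := ∑ _i : ι, C) fun z => ?_
    exact (norm_sum_le _ _).trans (Finset.sum_le_sum fun i _ => hC z)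
  have hint : ∫ z, ((ψ z).toReal : ℂ) * (E z : ℂ) = 0 := by
    have h1 : (fun z => ((ψ z).toReal : ℂ) * (E z : ℂ)) = fun z => ((ψ z).toReal : ℂ) *
        ∑ i, petersson 2 (f ∣[(2 : ℤ)] (r i)) (f ∣[(2 : ℤ)] (r i)) z -
          ((ψ z).toReal : ℂ) * ∑ _i : ι, petersson 2 f f z := by
      funext z
      rw [hEpet, hsum, mul_sub]
    rw [h1, integral_sub hi1 hi2, ip_sum_slash h hψ hf hfr, sub_self]
  have hE0 : ∀ z, 0 ≤ E z := fun z => Finset.sum_nonneg fun i _ => by positivity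
  have hint' : ∫ z, (ψ z).toReal * E z = 0 := by
    have h1 : ((∫ z, (ψ z).toReal * E z : ℝ) : ℂ) = 0 := by
      rw [← integral_complex_ofReal, ← hint]
      congr 1
      funext z
      push_cast
      rfl
    exact_mod_cast h1
  rw [integral_eq_zero_iff_of_nonneg (fun z => mul_nonneg ENNReal.toReal_nonneg (hE0 z))] at hint'
  swap
  · have h1 := (hi1.sub hi2).re
    refine h1.congr (Filter.Eventually.of_forall fun z => ?_)
    change RCLike.re (((ψ z).toReal : ℂ) *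
        ∑ i, petersson 2 (f ∣[(2 : ℤ)] (r i)) (f ∣[(2 : ℤ)] (r i)) z -
          ((ψ z).toReal : ℂ) * ∑ _i : ι, petersson 2 f f z) = _
    rw [← mul_sub, ← hsum, ← hEpet, ← Complex.ofReal_mul]
    exact Complex.ofReal_re _
  -- invariance
  have hinv : ∀ γ ∈ 𝒢, ∀ z, E (γ • z) = E z := by
    intro γ hγ z
    have h1 : ((E (γ • z) : ℝ) : ℂ) = ((E z : ℝ) : ℂ) := by
      rw [hEpet, hEpet]
      obtain ⟨σ, hσ⟩ := exists_perm h hγ
      refine (Finset.sum_congr rfl fun i _ => ?_).trans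
        (σ.sum_comp (fun i => petersson 2 (Df f c (r i)) (Df f c (r i)) z))
      obtain ⟨g, hg, hgr⟩ := hσ i
      rw [← petersson_slash_pos (pos_of_mem h hγ)]
      have h2 : (Df f c (r i)) ∣[(2 : ℤ)] γ = Df f c (r (σ i)) := by
        rw [Df, Df, sub_eq_add_neg, SlashAction.add_slash, SlashAction.neg_slash,
          ← SlashAction.slash_mul, hgr, SlashAction.slash_mul, hf.slash g hg, sub_eq_add_neg]
        congr 2
        have h3 : (c • f) ∣[(2 : ℤ)] γ = c • (f ∣[(2 : ℤ)] γ) := by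
          ext w
          simp only [ModularForm.slash_apply, Pi.smul_apply, smul_eq_mul,
            UpperHalfPlane.σ, if_pos (pos_of_mem h hγ), ContinuousAlgEquiv.refl_apply]
          ring
        rw [h3, hf.slash γ hγ]
      rw [h2]
    exact_mod_cast h1
  have h1 : ∀ᵐ z : ℍ, ∀ γ : 𝒢, (ψ ((γ : GL (Fin 2) ℝ) • z)).toReal *
      E ((γ : GL (Fin 2) ℝ) • z) = 0 := by
    rw [ae_all_iff]
    intro γ
    exact (measurePreserving_smul (γ : GL (Fin 2) ℝ)
      (volume : Measure ℍ)).quasiMeasurePreserving.ae hint'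
  have h2 : E =ᵐ[volume] (0 : ℍ → ℝ) := by
    filter_upwards [h1] with z hz
    obtain ⟨γ, hγ⟩ : ∃ γ : 𝒢, ψ ((γ : GL (Fin 2) ℝ) • z) ≠ 0 := by
      by_contra hcon
      push Not at hcon
      have := hψ.sum z
      simp only [hcon, tsum_zero] at this
      exact zero_ne_one this
    have h3 := hz γ
    rw [mul_eq_zero, ENNReal.toReal_eq_zero_iff, hinv _ γ.2] at h3
    rcases h3 with h3 | h3
    · exact absurd h3 (by simp [hγ, hψ.ne_top])
    · exact h3
  have h3 : E = 0 := (hEcont.ae_eq_iff_eq _ continuous_zero).1 h2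
  funext z
  have h4 := congrFun h3 z
  rw [hE] at h4
  have h5 := (Finset.sum_eq_zero_iff_of_nonneg (fun i _ => by positivity)).mp h4 i
    (Finset.mem_univ i)
  have h6 : Df f c (r i) z = 0 := by
    rcases mul_eq_zero.mp h5 with h6 | h6
    · simpa using h6
    · exact absurd h6 (by have := z.im_pos; positivity)
  rw [Df, Pi.sub_apply, sub_eq_zero] at h6
  exact h6

/-- iterating the diagonal matrix -/
theorem no_diag {N : ℕ} [NeZero N] {p : ℕ} (hp : 1 < p) (f : S2 N) {c : ℂ} (hc : ‖c‖ = 1)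
    (h : (f : ℍ → ℂ) ∣[(2 : ℤ)] ModularForm.heckeDiagMatrix p = c • (f : ℍ → ℂ)) : f = 0 := by
  have hp0 : p ≠ 0 := by omega
  by_contra hf
  obtain ⟨z, hz⟩ : ∃ z, f z ≠ 0 := by
    by_contra hcon
    push Not at hcon
    exact hf (DFunLike.ext _ _ hcon)
  have h1 : ∀ w : ℍ, ‖f (ModularForm.heckeDiagMatrix p • w)‖ * p = ‖f w‖ := by
    intro w
    have h2 := congrFun h w
    rw [ModularForm.slash_heckeDiagMatrix_apply 2 hp0, Pi.smul_apply, smul_eq_mul] at h2
    have h3 := congrArg norm h2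
    rw [norm_mul, norm_mul, hc, one_mul, norm_zpow, Complex.norm_natCast,
      show (2 : ℤ) - 1 = 1 by norm_num, zpow_one, mul_comm] at h3
    exact h3
  let w : ℕ → ℍ := fun n => (ModularForm.heckeDiagMatrix p) ^ n • z
  have hw : ∀ n, w (n + 1) = ModularForm.heckeDiagMatrix p • w n := fun n => by
    simp only [w]
    rw [pow_succ', mul_smul]
  have him : ∀ n, (w n).im = p ^ n * z.im := by
    intro n
    induction n with
    | zero => simp [w]
    | succ n ih =>
      rw [hw]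
      have h4 := congrArg Complex.im (ModularForm.coe_heckeDiagMatrix_smul hp0 (w n))
      rw [UpperHalfPlane.coe_im] at h4
      rw [h4, ← nsmul_eq_mul, Complex.smul_im, UpperHalfPlane.coe_im, ih, nsmul_eq_mul]
      ring
  have hnf : ∀ n, ‖f (w n)‖ * (w n).im = ‖f z‖ * z.im := by
    intro n
    induction n with
    | zero => simp [w]
    | succ n ih =>
      have h5 := h1 (w n)
      rw [← hw] at h5
      rw [← ih, ← h5, him, him]
      ring
  obtain ⟨b, hb, hO⟩ := CuspFormClass.exp_decay_atImInfty' f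
  obtain ⟨C, hC⟩ := hO.bound
  have htend : Filter.Tendsto (fun n => (w n).im) Filter.atTop Filter.atTop := by
    simp only [him]
    exact (tendsto_pow_atTop_atTop_of_one_lt (by exact_mod_cast hp)).atTop_mul_const z.im_pos
  have hwt : Filter.Tendsto w Filter.atTop atImInfty := Filter.tendsto_comap_iff.mpr htend
  have hev := hwt.eventually hC
  have hlim : Filter.Tendsto (fun n => C * (Real.exp (-b * (w n).im) * (w n).im)) Filter.atTop
      (nhds 0) := by
    have h6 := (Real.tendsto_pow_mul_exp_neg_atTop_nhds_zero 1).comp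
      (Filter.tendsto_id.const_mul_atTop hb)
    have h7 : Filter.Tendsto (fun x : ℝ => Real.exp (-b * x) * x) Filter.atTop (nhds 0) := by
      have h8 := h6.const_mul b⁻¹
      rw [mul_zero] at h8
      refine h8.congr fun x => ?_
      simp only [Function.comp_apply, id, pow_one]
      rw [neg_mul]
      field_simp
    have h9 := (h7.comp htend).const_mul C
    rw [mul_zero] at h9
    exact h9
  have hle : ∀ᶠ n in Filter.atTop, ‖f z‖ * z.im ≤ C * (Real.exp (-b * (w n).im) * (w n).im) := by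
    filter_upwards [hev] with n hn
    rw [← hnf n, ← mul_assoc]
    refine mul_le_mul_of_nonneg_right ?_ (w n).im_pos.le
    rwa [Real.norm_of_nonneg (Real.exp_nonneg _)] at hn
  have h10 : ‖f z‖ * z.im ≤ 0 := ge_of_tendsto hlim hle
  have h11 : 0 < ‖f z‖ * z.im := mul_pos (norm_pos_iff.mpr hz) z.im_pos
  linarith

/-- **`a_p ≠ ± (p + 1)`** -/
theorem eig_ne {N : ℕ} [NeZero N] {p : ℕ} (hp : p.Prime) (hpN : ¬ p ∣ N) {f : S2 N}
    {a : ℂ} (ha : DSLift.heckeOp N 2 hp f = a • f) (hna : conj a * a = ((p : ℂ) + 1) ^ 2) :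
    f = 0 := by
  have hcard : (Fintype.card (Option (Fin p)) : ℂ) = (p : ℂ) + 1 := by
    rw [Fintype.card_option, Fintype.card_fin]
    push_cast
    ring
  have h1 : ∑ i, (f : ℍ → ℂ) ∣[(2 : ℤ)] (rT p i) = a • (f : ℍ → ℂ) := by
    rw [← heckeT_eq_sum, ← CuspForm.coe_heckeTLin_apply 2 hp hpN f, ← DSLift.heckeOp_of_not_dvd hp hpN,
      ha]
    rfl
  have h2 := slash_eq_of_eig (hsys_T hp hpN) (isWt_psi N) (nice_cuspForm f)
    (fun i => (MDifferentiable.slash (CuspFormClass.holo f) 2 _).continuous) h1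
    (by rw [hna, hcard]) none
  refine no_diag hp.one_lt f ?_ h2
  rw [hcard]
  have h3 : ‖a‖ ^ 2 = ((p : ℝ) + 1) ^ 2 := by
    have h4 := congrArg norm hna
    rw [norm_mul, Complex.norm_conj, norm_pow, ← sq] at h4
    rw [h4]
    congr 1
    have : ((p : ℂ) + 1) = (((p : ℝ) + 1 : ℝ) : ℂ) := by push_cast; rfl
    rw [this, Complex.norm_of_nonneg (by positivity)]
  have h5 : ‖a‖ = (p : ℝ) + 1 := by
    exact (sq_eq_sq₀ (norm_nonneg _) (by positivity)).mp h3
  rw [norm_div, h5]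
  have : ((p : ℂ) + 1) = (((p : ℝ) + 1 : ℝ) : ℂ) := by push_cast; rfl
  rw [this, Complex.norm_of_nonneg (by positivity)]
  exact div_self (by positivity)

end Fermat.Agent.MazH
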