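import Fermat.Agent.MazH.Gal
import Fermat.Agent.MazH.Bound
import Fermat.Agent.AnJac.Link

/-!
# The Hecke algebra
-/

set_option autoImplicit false
set_option maxHeartbeats 400000
set_option linter.unusedSectionVars false
set_option linter.style.haveILetI false
set_option synthInstance.maxHeartbeats 400000

noncomputable section

namespace Fermat.Agent.MazH

open AlgebraicCurve Fermat.Agent.Curves Fermat.Agent.GoodRed Fermat.Agent.AnJac ModularCurve
  Fermat.Agent.GenusX0 Fermat.Agent.FlatHopf Fermat.Agent.HeckeQ Fermat.Agent.Maz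
  Fermat.Agent.Newform

open scoped ComplexConjugate

variable (N : ℕ) [NeZero N]

/-- polynomials in the Hecke operators, on cusp forms -/
def aS : FreeAlgebra ℤ (PN N) →ₐ[ℤ] Module.End ℂ (S2 N) :=
  FreeAlgebra.lift ℤ fun s => DSLift.heckeOp N 2 s.2.1

variable {N}

theorem aS_ι (s : PN N) : aS N (FreeAlgebra.ι ℤ s) = DSLift.heckeOp N 2 s.2.1 :=
  FreeAlgebra.lift_ι_apply _ _

/-- **relations** -/
theorem aL_eq_zero_iff {P : FreeAlgebra ℤ (PN N)} : aL N P = 0 ↔ aS N P = 0 := by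
  set m : FreeAlgebra ℤ (PN N) →ₐ[ℤ] FreeAlgebra ℤ PrimeT :=
    FreeAlgebra.lift ℤ (fun i => FreeAlgebra.ι ℤ ⟨i.1, i.2.1⟩) with hm
  have h1 : aL N P = tmA (bL N) (actL N (m P)) :=
    lift_tm (bL N) (fun i : PN N => (⟨i.1, i.2.1⟩ : PrimeT)) P
  have h3 : (actS N).comp m = aS N := by
    apply FreeAlgebra.hom_ext
    funext i
    simp only [Function.comp_apply, AlgHom.comp_apply, m, FreeAlgebra.lift_ι_apply]
    rw [actS_ι, aS_ι]
  rw [h1, ← h3, AlgHom.comp_apply, ← actL_eq_zero_iff]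
  constructor
  · intro h
    exact tmA_injective (bL N) (h.trans (map_zero (tmA (bL N))).symm)
  · intro h
    rw [h, map_zero]

/-- characters -/
def chi (χ : GP N → ℂ) : FreeAlgebra ℤ (PN N) →ₐ[ℤ] ℂ :=
  FreeAlgebra.lift ℤ fun s => χ s

theorem aS_eig {χ : GP N → ℂ} {f : S2 N} (hf : f ∈ Eig N N χ) (P : FreeAlgebra ℤ (PN N)) :
    aS N P f = chi χ P • f := by
  induction P using FreeAlgebra.induction with
  | grade0 c =>
    rw [AlgHom.commutes, AlgHom.commutes, eq_intCast, eq_intCast]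
    change c • f = _
    rw [Int.cast_smul_eq_zsmul]
  | grade1 s =>
    rw [aS_ι, mem_Eig.1 hf s]
    congr 1
    exact (FreeAlgebra.lift_ι_apply (R := ℤ) (A := ℂ) (fun s : PN N => χ s) s).symm
  | mul P Q hP hQ =>
    rw [map_mul, map_mul, Module.End.mul_apply, hQ, map_smul, hP, smul_smul, mul_comm]
  | add P Q hP hQ =>
    rw [map_add, map_add, LinearMap.add_apply, hP, hQ, add_smul]

/-- vanishing can be tested on eigenforms -/
theorem aL_eq_zero_of {P : FreeAlgebra ℤ (PN N)}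
    (h : ∀ (χ : GP N → ℂ) (f : S2 N), f ∈ Eig N N χ → f ≠ 0 → chi χ P = 0) : aL N P = 0 := by
  rw [aL_eq_zero_iff]
  have h1 : (⊤ : Submodule ℂ (S2 N)) ≤ LinearMap.ker (aS N P) := by
    rw [← iSup_Eig (M := N) (D := N) dvd_rfl, iSup_le_iff]
    intro χ f hf
    rw [LinearMap.mem_ker, aS_eig hf]
    by_cases h0 : f = 0
    · rw [h0, smul_zero]
    · rw [h χ f hf h0, zero_smul]
  exact LinearMap.ext fun f => h1 trivial

theorem chi_eq_zero {P : FreeAlgebra ℤ (PN N)} (h : aL N P = 0) {χ : GP N → ℂ} {f : S2 N}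
    (hf : f ∈ Eig N N χ) (h0 : f ≠ 0) : chi χ P = 0 := by
  have h1 := aS_eig hf P
  rw [aL_eq_zero_iff.mp h] at h1
  exact (smul_eq_zero.mp h1.symm).resolve_right h0

variable (N) in
/-- the Hecke algebra -/
def TA : Subalgebra ℤ (Matrix (Fin (rk N)) (Fin (rk N)) ℤ) :=
  Algebra.adjoin ℤ (Set.range fun s : PN N => tL N s.1)

theorem aL_mem (P : FreeAlgebra ℤ (PN N)) : aL N P ∈ TA N := by
  induction P using FreeAlgebra.induction with
  | grade0 c => rw [AlgHom.commutes]; exact (TA N).algebraMap_mem c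
  | grade1 s => rw [aL_ι]; exact Algebra.subset_adjoin ⟨s, rfl⟩
  | mul P Q hP hQ => rw [map_mul]; exact (TA N).mul_mem hP hQ
  | add P Q hP hQ => rw [map_add]; exact (TA N).add_mem hP hQ

theorem exists_aL (t : TA N) : ∃ P : FreeAlgebra ℤ (PN N), aL N P = t := by
  obtain ⟨t, ht⟩ := t
  change ∃ P : FreeAlgebra ℤ (PN N), aL N P = t
  induction ht using Algebra.adjoin_induction with
  | mem x hx =>
    obtain ⟨s, rfl⟩ := hx
    exact ⟨FreeAlgebra.ι ℤ s, aL_ι s⟩
  | algebraMap c => exact ⟨algebraMap ℤ _ c, AlgHom.commutes _ _⟩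
  | add x y _ _ hx hy =>
    obtain ⟨P, rfl⟩ := hx
    obtain ⟨Q, rfl⟩ := hy
    exact ⟨P + Q, map_add _ _ _⟩
  | mul x y _ _ hx hy =>
    obtain ⟨P, rfl⟩ := hx
    obtain ⟨Q, rfl⟩ := hy
    exact ⟨P * Q, map_mul _ _ _⟩

theorem aL_comm (P Q : FreeAlgebra ℤ (PN N)) : aL N P * aL N Q = aL N Q * aL N P := by
  rw [← sub_eq_zero, ← map_mul, ← map_mul, ← map_sub]
  refine aL_eq_zero_of fun χ f _ _ => ?_
  rw [map_sub, map_mul, map_mul, mul_comm, sub_self]

instance : CommRing (TA N) :=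
  { (TA N).toRing with
    mul_comm := fun x y => by
      obtain ⟨P, hP⟩ := exists_aL x
      obtain ⟨Q, hQ⟩ := exists_aL y
      apply Subtype.ext
      change (x : Matrix (Fin (rk N)) (Fin (rk N)) ℤ) * y = y * x
      rw [← hP, ← hQ, aL_comm] }

theorem isReduced_TA : IsReduced (TA N) := by
  constructor
  intro x hx
  obtain ⟨n, hn⟩ := hx
  obtain ⟨P, hP⟩ := exists_aL x
  have h1 : aL N (P ^ n) = 0 := by
    rw [map_pow, hP]
    exact congrArg Subtype.val hn
  apply Subtype.ext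
  rw [← hP]
  refine aL_eq_zero_of fun χ f hf h0 => ?_
  have h2 := chi_eq_zero h1 hf h0
  rw [map_pow] at h2
  exact eq_zero_of_pow_eq_zero h2

theorem eta_TA (s : PN N) (e : ℤ) (he : e = 1 ∨ e = -1) (t : TA N)
    (h : ((⟨tL N s.1, Algebra.subset_adjoin ⟨s, rfl⟩⟩ : TA N) - (e : TA N) * (1 + (s.1 : TA N))) * t
      = 0) : t = 0 := by
  obtain ⟨P, hP⟩ := exists_aL t
  have h1 : aL N ((FreeAlgebra.ι ℤ s - (e : FreeAlgebra ℤ (PN N)) * (1 + (s.1 : FreeAlgebra ℤ (PN N))))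
      * P) = 0 := by
    have h2 := congrArg Subtype.val h
    rw [map_mul, map_sub, aL_ι, map_mul, map_intCast, map_add, map_one, map_natCast, hP]
    exact h2
  apply Subtype.ext
  rw [← hP]
  refine aL_eq_zero_of fun χ f hf h0 => ?_
  have h2 := chi_eq_zero h1 hf h0
  rw [map_mul, map_sub, map_mul, map_intCast, map_add, map_one, map_natCast] at h2
  refine (mul_eq_zero.mp h2).resolve_left fun h3 => ?_
  have h4 : chi χ (FreeAlgebra.ι ℤ s) = χ s :=
    FreeAlgebra.lift_ι_apply (R := ℤ) (A := ℂ) (fun s : PN N => χ s) s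
  rw [h4, sub_eq_zero] at h3
  refine h0 (eig_ne s.2.1 s.2.2 (a := χ s) (mem_Eig.1 hf s) ?_)
  rw [h3]
  rcases he with rfl | rfl
  · simp only [Int.cast_one, one_mul, map_add, map_one, map_natCast]
    ring
  · simp only [Int.cast_neg, Int.cast_one, neg_mul, one_mul, map_neg, map_add, map_one,
      map_natCast]
    ring

end Fermat.Agent.MazH
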