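import Fermat.Agent.MazH.Act

/-!
# Hecke operators commute with the Galois action on `J₀(N)`
-/

set_option autoImplicit false
set_option maxHeartbeats 400000
set_option linter.unusedSectionVars false
set_option linter.style.haveILetI false
set_option synthInstance.maxHeartbeats 400000

noncomputable section

namespace Fermat.Agent.MazH

open AlgebraicCurve Fermat.Agent.Curves Fermat.Agent.GoodRed Fermat.Agent.AnJac ModularCurve
  Fermat.Agent.GenusX0 Fermat.Agent.FlatHopf Fermat.Agent.HeckeQ Fermat.Agent.Maz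

local notation "Qbar" => AlgebraicClosure ℚ
local notation "GQ" => Qbar ≃ₐ[ℚ] Qbar

variable {N : ℕ} [NeZero N]

theorem heckeDiv_gact_divisorOf {s : ℕ} [hs : Fact s.Prime] (hN : ¬ s ∣ N) (σ : GQ)
    {f : modularFunctionFieldBar N} (hf : f ≠ 0) :
    heckeDiv Qbar N s (gact N σ • divisorOf f) = gact N σ • heckeDiv Qbar N s (divisorOf f) := by
  obtain ⟨g, hg, hg'⟩ := heckeDiv_divisorOf hN hf
  obtain ⟨v, hv, hv'⟩ := heckeDiv_divisorOf hN (gact_ne_zero σ hf)
  rw [smul_divisorOf, hv', hg', smul_divisorOf]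
  congr 1
  apply Subtype.ext
  have h1 : ((gact N σ • g : modularFunctionFieldBar N) : LaurentSeries Qbar) =
      coeffMap (σ : Qbar →+* Qbar) (g : LaurentSeries Qbar) := coe_arithmeticGalois_smul _ σ g
  have h2 : ((gact N σ • f : modularFunctionFieldBar N) : LaurentSeries Qbar) =
      coeffMap (σ : Qbar →+* Qbar) (f : LaurentSeries Qbar) := coe_arithmeticGalois_smul _ σ f
  rw [h1, hv, h2, hg]
  exact (coeffMap_hM s (σ : Qbar →+* Qbar) (RingHom.injective _) _).symm

theorem heckeDiv_gact {s : ℕ} [hs : Fact s.Prime] (hN : ¬ s ∣ N) (σ : GQ)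
    {D : Divisor Qbar (modularFunctionFieldBar N)} (hD : Divisor.degree D = 0) :
    heckeDiv Qbar N s (gact N σ • D) = gact N σ • heckeDiv Qbar N s D := by
  have h0 := smul_posDeg (gact N σ)
  obtain ⟨c, hc⟩ := heckeDiv_posDeg (N := N) (ℓ := s)
  exact rigid (h0.comp hc) (hc.comp h0) (fun f hf => heckeDiv_gact_divisorOf hN σ hf) hD

/-- **Hecke operators commute with Galois** -/
theorem Tj_smul {s : ℕ} (hs : s.Prime) (hN : ¬ s ∣ N) (σ : GQ) (x : JZero N) :
    Tj N s hs (σ • x) = σ • Tj N s hs x := by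
  haveI : Fact s.Prime := ⟨hs⟩
  obtain ⟨D, rfl⟩ := Pic0.mk_surjective x
  rw [S37.gal_mk]
  refine (S37.hecke_mk hs _).trans ?_
  have h1 : Tj N s hs (Pic0.mk D : JZero N) = Pic0.mk ⟨heckeDiv Qbar N s D,
    heckeDiv_mem_degZero Qbar N s D.2⟩ := S37.hecke_mk hs D
  rw [h1, S37.gal_mk]
  congr 1
  apply Subtype.ext
  exact heckeDiv_gact hN σ D.2

theorem aJ_smul (P : FreeAlgebra ℤ (PN N)) (σ : GQ) (x : JZero N) :
    aJ N P (σ • x) = σ • aJ N P x := by
  induction P using FreeAlgebra.induction generalizing x with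
  | grade0 c =>
    rw [AlgHom.commutes]
    change c • (σ • x) = σ • (c • x)
    exact (map_zsmul (DistribSMul.toAddMonoidHom (JZero N) σ) c x).symm
  | grade1 s =>
    rw [aJ_ι]
    exact Tj_smul s.2.1 s.2.2 σ x
  | mul P Q hP hQ =>
    rw [map_mul]
    change aJ N P (aJ N Q (σ • x)) = σ • aJ N P (aJ N Q x)
    rw [hQ, hP]
  | add P Q hP hQ =>
    rw [map_add]
    change aJ N P (σ • x) + aJ N Q (σ • x) = σ • (aJ N P x + aJ N Q x)
    rw [hP, hQ, smul_add]

end Fermat.Agent.MazH
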