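import Fermat.Agent.FlatHopf.Torsion
import Fermat.Agent.HeckeQ.Inst
import Fermat.Agent.Maz.Defs

/-!
# The torsion of `J₀(N)`, with Galois and Hecke actions
-/

set_option autoImplicit false
set_option maxHeartbeats 400000
set_option linter.unusedSectionVars false
set_option synthInstance.maxHeartbeats 400000

noncomputable section

namespace Fermat.Agent.MazH

open AlgebraicCurve Fermat.Agent.Curves Fermat.Agent.GoodRed Fermat.Agent.AnJac ModularCurve
  Fermat.Agent.GenusX0 Fermat.Agent.FlatHopf Fermat.Agent.HeckeQ Fermat.Agent.Maz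

section Gen

variable {k F G Λ : Type*} [Field k] [IsAlgClosed k] [Field F] [Algebra k F]
  [IsFunctionField k F] [Group G] [AddCommGroup Λ] (K : KSys F G Λ)
  (act : G →* SemilinearAut k F)

variable {r : ℕ} (b : Module.Basis (Fin r) ℤ Λ)

theorem exists_equiv_pairs {n : ℕ} (hn : n ≠ 0) (hact : ∀ σ u, K.act σ u = act σ • u)
    (hdvd : ∀ φ u, K.cl n φ u → ∀ v : Place k F, (n : ℤ) ∣ v.ord u)
    (hex : ∀ u, u ≠ 0 → (∀ v : Place k F, (n : ℤ) ∣ v.ord u) → ∃ φ, K.cl n φ u) :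
    ∃ e : Submodule.torsionBy ℤ (Pic0 k F) (n : ℤ) ≃+ (Fin r → ZMod n),
      (∀ z : pairs k K hn, e (pairsPic K hn z) = pairsRed K b hn z) ∧
      Function.Surjective (pairsPic (k := k) K hn) ∧
      ∀ (σ : G) (x y : Submodule.torsionBy ℤ (Pic0 k F) (n : ℤ)),
        (y : Pic0 k F) = act σ • (x : Pic0 k F) → e y = (K.M b hn σ).mulVec (e x) := by
  have hn' : (n : ℤ) ≠ 0 := by exact_mod_cast hn
  have hα : Function.Surjective (pairsPic (k := k) K hn) := by
    rintro ⟨x, hx⟩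
    obtain ⟨D, rfl⟩ := Pic0.mk_surjective x
    have hx' := hx
    rw [Submodule.mem_torsionBy_iff, smul_mk, mk_eq_zero_iff] at hx'
    obtain ⟨u, hu, hD⟩ := hx'
    have hD' : ∀ v : Place k F, (n : ℤ) * (D : Divisor k F) v = v.ord u := fun v => by
      rw [← hD v, AddSubgroupClass.coe_nsmul, Finsupp.smul_apply, nsmul_eq_mul]
    obtain ⟨φ, hφ⟩ := hex u hu (fun v => ⟨_, (hD' v).symm⟩)
    exact ⟨⟨(φ, D), u, hφ, hD'⟩, rfl⟩
  have hβ : Function.Surjective (pairsRed (k := k) K b hn) := by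
    intro w
    obtain ⟨φ, rfl⟩ := red_surjective b w
    obtain ⟨u, hu⟩ := K.ex hn φ
    choose q hq using fun v => hdvd φ u hu v
    have hfin : (Function.support q).Finite := by
      refine (finite_support (k := k) u).subset fun v hv => ?_
      rw [Function.mem_support] at hv ⊢
      rw [hq v]
      exact mul_ne_zero hn' hv
    let D : Divisor k F := Finsupp.ofSupportFinite q hfin
    have hD : ∀ v, D v = q v := fun v => rfl
    have hdiv : n • D = divisorOf u := by
      ext v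
      rw [Finsupp.smul_apply, hD, divisorOf_apply, hq v, nsmul_eq_mul]
    have hdeg : D ∈ Divisor.degZero (K := k) (F := F) := by
      rw [Divisor.mem_degZero]
      have h1 := congrArg Divisor.degree hdiv
      rw [map_nsmul, degree_divisorOf, nsmul_eq_mul] at h1
      exact (mul_eq_zero.mp h1).resolve_left hn'
    exact ⟨⟨(φ, ⟨D, hdeg⟩), u, hu, fun v => (hq v).symm⟩, rfl⟩
  have hker : (pairsPic (k := k) K hn).ker = (pairsRed (k := k) K b hn).ker := by
    ext ⟨⟨φ, D⟩, u, hu, hD⟩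
    rw [AddMonoidHom.mem_ker, AddMonoidHom.mem_ker, pairsRed_apply, KSys.red_eq_zero,
      ← Submodule.coe_eq_zero, coe_pairsPic, mk_eq_zero_iff]
    have hu0 := K.ne_zero hu
    constructor
    · rintro ⟨g, hg, hgD⟩
      have hgn : g ^ n ≠ 0 := pow_ne_zero n hg
      obtain ⟨c, hc⟩ := exists_const_of_ord_zero (k := k) (x := u * (g ^ n)⁻¹) (fun P => by
        rw [Place.ord_mul P hu0 (inv_ne_zero hgn), Place.ord_inv, ← hD P]
        have h1 := Place.ord_zpow P g (n : ℤ)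
        rw [zpow_natCast] at h1
        rw [h1, ← hgD P]
        ring)
      obtain ⟨d, hd⟩ := IsAlgClosed.exists_pow_nat_eq c (Nat.pos_of_ne_zero hn)
      have h2 : u = (algebraMap k F d * g) ^ n := by
        rw [mul_pow, ← map_pow, hd, ← hc, inv_mul_cancel_right₀ hgn]
      have hne : algebraMap k F d * g ≠ 0 := by
        intro h
        rw [h, zero_pow hn] at h2
        exact hu0 h2
      have h3 := K.pow hn hne 0
      rw [← h2] at h3
      obtain ⟨χ, hχ⟩ := K.uniq hn hu h3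
      rw [smul_zero, sub_zero] at hχ
      exact ⟨χ, hχ⟩
    · rintro ⟨χ, hχ⟩
      change φ = n • χ at hχ
      subst hχ
      obtain ⟨g, hg⟩ := K.root hn hu
      have hg0 : g ≠ 0 := by
        rintro rfl
        rw [zero_pow hn] at hg
        exact hu0 hg.symm
      refine ⟨g, hg0, fun v => ?_⟩
      have h1 := Place.ord_zpow v g (n : ℤ)
      rw [zpow_natCast, hg, ← hD v] at h1
      exact mul_left_cancel₀ hn' h1
  let e : Submodule.torsionBy ℤ (Pic0 k F) (n : ℤ) ≃+ (Fin r → ZMod n) :=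
    (QuotientAddGroup.quotientKerEquivOfSurjective _ hα).symm.trans
      ((QuotientAddGroup.quotientAddEquivOfEq hker).trans
        (QuotientAddGroup.quotientKerEquivOfSurjective _ hβ))
  have he : ∀ z, e (pairsPic K hn z) = pairsRed K b hn z := by
    intro z
    have h1 : (QuotientAddGroup.quotientKerEquivOfSurjective _ hα).symm (pairsPic K hn z) =
        QuotientAddGroup.mk z := by
      rw [AddEquiv.symm_apply_eq]
      rfl
    change (QuotientAddGroup.quotientKerEquivOfSurjective _ hβ)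
      ((QuotientAddGroup.quotientAddEquivOfEq hker)
        ((QuotientAddGroup.quotientKerEquivOfSurjective _ hα).symm (pairsPic K hn z))) = _
    rw [h1]
    rfl
  refine ⟨e, he, hα, fun σ x y hxy => ?_⟩
  obtain ⟨z, rfl⟩ := hα x
  obtain ⟨z', u, hu, hu', hz'⟩ := pairs_gal K act hn hact σ z
  have hy : y = pairsPic K hn z' := by
    apply Subtype.ext
    rw [hxy, coe_pairsPic, coe_pairsPic, SemilinearAut.pic0_smul_mk]
    exact congrArg Pic0.mk (Subtype.ext hz'.symm)
  rw [hy, he, he, pairsRed_apply, pairsRed_apply]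
  exact (K.M_mulVec b hn σ hu hu').symm

theorem exists_equiv_rel {n : ℕ} (hn : n ≠ 0) (hact : ∀ σ u, K.act σ u = act σ • u)
    (hdvd : ∀ φ u, K.cl n φ u → ∀ v : Place k F, (n : ℤ) ∣ v.ord u)
    (hex : ∀ u, u ≠ 0 → (∀ v : Place k F, (n : ℤ) ∣ v.ord u) → ∃ φ, K.cl n φ u) :
    ∃ e : Submodule.torsionBy ℤ (Pic0 k F) (n : ℤ) ≃+ (Fin r → ZMod n),
      (∀ (φ : Λ) (D : Divisor.degZero (K := k) (F := F)) (u : F), K.cl n φ u →
        (∀ v : Place k F, (n : ℤ) * (D : Divisor k F) v = v.ord u) →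
        ∀ x : Submodule.torsionBy ℤ (Pic0 k F) (n : ℤ), (x : Pic0 k F) = Pic0.mk D →
          e x = KSys.red b n φ) ∧
      (∀ x : Submodule.torsionBy ℤ (Pic0 k F) (n : ℤ), ∀ D : Divisor.degZero (K := k) (F := F),
        (x : Pic0 k F) = Pic0.mk D → ∃ (φ : Λ) (u : F), K.cl n φ u ∧ u ≠ 0 ∧
          ∀ v : Place k F, (n : ℤ) * (D : Divisor k F) v = v.ord u) ∧
      ∀ (σ : G) (x y : Submodule.torsionBy ℤ (Pic0 k F) (n : ℤ)),
        (y : Pic0 k F) = act σ • (x : Pic0 k F) → e y = (K.M b hn σ).mulVec (e x) := by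
  obtain ⟨e, he, hα, hg⟩ := exists_equiv_pairs K act b hn hact hdvd hex
  refine ⟨e, ?_, ?_, hg⟩
  · intro φ D u hφ hD x hx
    have h1 := he ⟨(φ, D), u, hφ, hD⟩
    rw [pairsRed_apply] at h1
    rw [← h1]
    congr 1
    exact Subtype.ext hx
  · intro x D hx
    have hx' := (Submodule.mem_torsionBy_iff _ _).mp x.2
    rw [hx, smul_mk, mk_eq_zero_iff] at hx'
    obtain ⟨u, hu, hDu⟩ := hx'
    have hD' : ∀ v : Place k F, (n : ℤ) * (D : Divisor k F) v = v.ord u := fun v => by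
      rw [← hDu v, AddSubgroupClass.coe_nsmul, Finsupp.smul_apply, nsmul_eq_mul]
    obtain ⟨φ, hφ⟩ := hex u hu (fun v => ⟨_, (hD' v).symm⟩)
    exact ⟨φ, u, hφ, hu, hD'⟩

omit [IsAlgClosed k] in
theorem nsmul_ap (D : Divisor k F) (n : ℕ) (v : Place k F) : (n • D) v = (n : ℤ) * D v := by
  rw [Finsupp.smul_apply, nsmul_eq_mul]

theorem nsmul_eq_div {D : Divisor k F} {n : ℕ} {u : F}
    (h : ∀ v : Place k F, (n : ℤ) * D v = v.ord u) : n • D = divisorOf u := by
  ext v
  rw [nsmul_ap, h, divisorOf_apply]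

theorem ap_of_eq_div {D : Divisor k F} {n : ℕ} {u : F}
    (h : n • D = divisorOf u) (v : Place k F) : (n : ℤ) * D v = v.ord u := by
  rw [← nsmul_ap, h, divisorOf_apply]

end Gen

section X0

local notation "Qbar" => AlgebraicClosure ℚ
local notation "GQ" => Qbar ≃ₐ[ℚ] Qbar

set_option maxHeartbeats 3200000 in
theorem exists_equiv_H (N : ℕ) [NeZero N] (E : IntermediateField Qbar (LaurentSeries Qbar))
    (hE : E = modularFunctionFieldFullC Qbar N) [IsFunctionField Qbar E]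
    (act : GQ →* SemilinearAut Qbar E)
    (hact : ∀ σ (x : E), ((act σ • x : E) : LaurentSeries Qbar) =
      coeffMap (σ : Qbar →+* Qbar) (x : LaurentSeries Qbar))
    {n : ℕ} (hn : n ≠ 0) :
    ∃ e : Submodule.torsionBy ℤ (Pic0 Qbar E) (n : ℤ) ≃+
        (Fin (Module.finrank ℤ (Lat N)) → ZMod n),
      (∀ σ (x y : Submodule.torsionBy ℤ (Pic0 Qbar E) (n : ℤ)),
        (y : Pic0 Qbar E) = act σ • (x : Pic0 Qbar E) →
          e y = ((KQ N).M (bL N) hn σ).mulVec (e x)) ∧
      ∀ (s : ℕ) [Fact s.Prime] (_ : ¬ s ∣ N) (hd : Divisor Qbar E →+ Divisor Qbar E)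
        (_ : ∀ f : E, f ≠ 0 → ∃ g : E, (g : LaurentSeries Qbar) = hM s (f : LaurentSeries Qbar) ∧
          hd (divisorOf f) = divisorOf g)
        (D D' : Divisor.degZero (K := Qbar) (F := E)) (_ : (D' : Divisor Qbar E) = hd D)
        (x y : Submodule.torsionBy ℤ (Pic0 Qbar E) (n : ℤ)) (_ : (x : Pic0 Qbar E) = Pic0.mk D)
        (_ : (y : Pic0 Qbar E) = Pic0.mk D'),
        e y = ((Int.castRingHom (ZMod n)).mapMatrix (KSys.tm (bL N) (LTot N s))).mulVec (e x) := by
  subst hE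
  obtain ⟨e, he, hα, hg⟩ := exists_equiv_rel (KQ N) act (bL N) hn
    (fun σ u => Subtype.ext (hact σ u).symm)
    (fun φ u h v => ClX.dvd_ord ιQ h v) (fun u hu h => exists_ClX ιQ hn hu h)
  refine ⟨e, hg, ?_⟩
  intro s hs hsN hd hhd D D' hD x y hx hy
  haveI : NeZero s := ⟨hs.out.ne_zero⟩
  obtain ⟨φ, u, hφ, hu, hD'⟩ := hα x D hx
  obtain ⟨ζ, hζ⟩ := exists_zeta s
  have hc := compat_LT (N := N) ιQ fQ hsN hζ (n := n) φ u hφ
  obtain ⟨g, hg1, hg2⟩ := hhd u hu
  have hg3 : FT ιQ hsN hζ u = g := by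
    apply Subtype.ext
    rw [hg1]
    exact heckeMul_eq_hM hζ _
  rw [hg3] at hc
  have hnD : n • (D : Divisor Qbar (modularFunctionFieldFullC Qbar N)) = divisorOf u :=
    nsmul_eq_div hD'
  have h3 := congrArg hd hnD
  rw [map_nsmul, hg2, ← hD] at h3
  have h1 : e x = KSys.red (bL N) n φ := he φ D u hφ hD' x hx
  have h2 : e y = KSys.red (bL N) n (LT N s hsN φ) :=
    he (LT N s hsN φ) D' g hc (ap_of_eq_div h3) y hy
  rw [h1, h2, KSys.tm_mulVec, LTot_of_not_dvd N s hsN]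

end X0

end Fermat.Agent.MazH
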